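import Fermat.Agent.GelfandPairs.Commutation
import Mathlib.LinearAlgebra.FreeModule.PID
import Mathlib.LinearAlgebra.Matrix.Basis
import Mathlib.LinearAlgebra.Matrix.GeneralLinearGroup.Defs
import Mathlib.LinearAlgebra.Matrix.ToLinearEquiv
import Mathlib.NumberTheory.Padics.ProperSpace
import Mathlib.Analysis.Matrix.PosDef
import Mathlib.Analysis.Matrix.Spectrum
import Mathlib.Topology.Instances.Matrix

/-!
# Cartan decompositions of `GL_n (ℚ_p)` and `GL_n (ℝ)`

Over a principal ideal domain the lattice spanned by the columns has a diagonal basis, which gives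
the decomposition `K A K` over `ℚ_p`; over `ℝ` it follows from the spectral theorem for `gᵀ g`.  As
the diagonal matrices are symmetric, transposition is then a Gelfand involution for both pairs.
-/

set_option autoImplicit false
set_option linter.unusedSectionVars false
set_option linter.style.haveILetI false

noncomputable section

open Topology Set
open scoped Matrix

namespace FA.GelfandPairs

section algebra

variable {m : Type*} [Fintype m] [DecidableEq m] {R : Type*} [CommRing R]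

/-- **Diagonal form over a principal ideal domain.** -/
theorem exists_diagonal_form [IsDomain R] [IsPrincipalIdealRing R] {A : Matrix m m R}
    (hA : A.det ≠ 0) :
    ∃ (P Q : Matrix.GeneralLinearGroup m R) (a : m → R),
      (∀ i, a i ≠ 0) ∧ A = (P : Matrix m m R) * Matrix.diagonal a * (Q : Matrix m m R) := by
  have hinj : Function.Injective (Matrix.toLin' A) := by
    rw [← LinearMap.ker_eq_bot, LinearMap.ker_eq_bot']
    intro v hv
    exact Matrix.eq_zero_of_mulVec_eq_zero hA (by rwa [Matrix.toLin'_apply] at hv)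
  obtain ⟨b, a, ab, hab⟩ := Submodule.exists_smith_normal_form_of_rank_eq (Pi.basisFun R m)
    (LinearMap.finrank_range_of_inj hinj)
  set c : Module.Basis m R (m → R) := ab.map (LinearEquiv.ofInjective _ hinj).symm with hc
  have hfc : ∀ i, A *ᵥ (c i) = a i • b i := fun i => by
    rw [← hab, ← Matrix.toLin'_apply, hc, Module.Basis.map_apply]
    exact LinearEquiv.ofInjective_symm_apply (f := (Matrix.toLin' A : (m → R) →ₗ[R] (m → R)))
      (h := hinj) (ab i)
  let e := Pi.basisFun R m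
  let B : Matrix.GeneralLinearGroup m R :=
    ⟨e.toMatrix b, b.toMatrix e, e.toMatrix_mul_toMatrix_flip b, b.toMatrix_mul_toMatrix_flip e⟩
  let C : Matrix.GeneralLinearGroup m R :=
    ⟨e.toMatrix c, c.toMatrix e, e.toMatrix_mul_toMatrix_flip c, c.toMatrix_mul_toMatrix_flip e⟩
  refine ⟨B, C⁻¹, a, fun i h => ab.ne_zero i ?_, ?_⟩
  · exact Subtype.ext (by rw [hab, h, zero_smul]; rfl)
  · have h : A * (C : Matrix m m R) = (B : Matrix m m R) * Matrix.diagonal a := by
      ext i j
      rw [Matrix.mul_diagonal]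
      show (A * e.toMatrix c) i j = e.toMatrix b i j * a j
      have h2 := congrFun (hfc j) i
      simp only [Matrix.mulVec, dotProduct, Pi.smul_apply, smul_eq_mul] at h2
      simp only [Matrix.mul_apply, Module.Basis.toMatrix_apply, e, Pi.basisFun_repr]
      rw [mul_comm (b j i)]
      exact h2
    rw [← h, mul_assoc, Units.mul_inv, mul_one]

/-- Transposition on the general linear group. -/
def glTranspose (g : Matrix.GeneralLinearGroup m R) : Matrix.GeneralLinearGroup m R where
  val := (g : Matrix m m R)ᵀ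
  inv := ((g⁻¹ : Matrix.GeneralLinearGroup m R) : Matrix m m R)ᵀ
  val_inv := by rw [← Matrix.transpose_mul, Units.inv_mul, Matrix.transpose_one]
  inv_val := by rw [← Matrix.transpose_mul, Units.mul_inv, Matrix.transpose_one]

theorem glTranspose_mul (g h : Matrix.GeneralLinearGroup m R) :
    glTranspose (g * h) = glTranspose h * glTranspose g :=
  Units.ext (Matrix.transpose_mul _ _)

theorem glTranspose_inv (g : Matrix.GeneralLinearGroup m R) :
    glTranspose g⁻¹ = (glTranspose g)⁻¹ := Units.ext rfl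

theorem glTranspose_glTranspose (g : Matrix.GeneralLinearGroup m R) :
    glTranspose (glTranspose g) = g := Units.ext (Matrix.transpose_transpose _)

theorem continuous_glTranspose [TopologicalSpace R] :
    Continuous (glTranspose : Matrix.GeneralLinearGroup m R → _) :=
  Units.continuous_iff.2 ⟨Units.continuous_val.matrix_transpose,
    Units.continuous_coe_inv.matrix_transpose⟩

/-- An invertible diagonal matrix. -/
def diagGL (d : m → Rˣ) : Matrix.GeneralLinearGroup m R where
  val := Matrix.diagonal fun i => (d i : R)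
  inv := Matrix.diagonal fun i => ((d i)⁻¹ : Rˣ)
  val_inv := by simp [Matrix.diagonal_mul_diagonal]
  inv_val := by simp [Matrix.diagonal_mul_diagonal]

theorem glTranspose_diagGL (d : m → Rˣ) : glTranspose (diagGL d) = diagGL d :=
  Units.ext (Matrix.diagonal_transpose _)

/-- A decomposition with symmetric middle factor gives the double coset condition. -/
theorem doubleCoset_of_decomposition {K : Subgroup (Matrix.GeneralLinearGroup m R)}
    (hK : ∀ k ∈ K, glTranspose k ∈ K) {g : Matrix.GeneralLinearGroup m R}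
    (hg : ∃ a ∈ K, ∃ b ∈ K, ∃ d : m → Rˣ, g = a * diagGL d * b) :
    ∃ a ∈ K, ∃ b ∈ K, glTranspose g = a * g * b := by
  obtain ⟨a, ha, b, hb, d, rfl⟩ := hg
  refine ⟨glTranspose b * a⁻¹, K.mul_mem (hK b hb) (K.inv_mem ha), b⁻¹ * glTranspose a,
    K.mul_mem (K.inv_mem hb) (hK a ha), ?_⟩
  rw [glTranspose_mul, glTranspose_mul, glTranspose_diagGL]
  group

end algebra

section padic

variable (p : ℕ) [Fact p.Prime] (n : ℕ)

/-- `GL_n (ℤ_p)` in `GL_n (ℚ_p)`. -/
def integralGL : Subgroup (Matrix.GeneralLinearGroup (Fin n) ℚ_[p]) :=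
  (Matrix.GeneralLinearGroup.map (n := Fin n) (PadicInt.Coe.ringHom : ℤ_[p] →+* ℚ_[p])).range

theorem mem_integralGL_iff (g : Matrix.GeneralLinearGroup (Fin n) ℚ_[p]) :
    g ∈ integralGL p n ↔ (∀ i j, ‖(g : Matrix (Fin n) (Fin n) ℚ_[p]) i j‖ ≤ 1) ∧
      ∀ i j, ‖((g⁻¹ : Matrix.GeneralLinearGroup (Fin n) ℚ_[p]) : Matrix (Fin n) (Fin n) ℚ_[p]) i j‖
        ≤ 1 := by
  constructor
  · rintro ⟨k, rfl⟩
    exact ⟨fun i j => (k.val i j).2, fun i j => by rw [← map_inv]; exact ((k⁻¹).val i j).2⟩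
  · rintro ⟨h1, h2⟩
    set V : Matrix (Fin n) (Fin n) ℤ_[p] := Matrix.of fun i j =>
      (⟨(g : Matrix (Fin n) (Fin n) ℚ_[p]) i j, h1 i j⟩ : ℤ_[p]) with hV
    set W : Matrix (Fin n) (Fin n) ℤ_[p] := Matrix.of fun i j =>
      (⟨((g⁻¹ : Matrix.GeneralLinearGroup (Fin n) ℚ_[p]) : Matrix (Fin n) (Fin n) ℚ_[p]) i j,
        h2 i j⟩ : ℤ_[p]) with hW
    have hval : (PadicInt.Coe.ringHom (p := p)).mapMatrix V = g := rfl
    have hinv : (PadicInt.Coe.ringHom (p := p)).mapMatrix W =
        (g⁻¹ : Matrix.GeneralLinearGroup (Fin n) ℚ_[p]).val := rfl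
    have hinj : Function.Injective ((PadicInt.Coe.ringHom (p := p)).mapMatrix (m := Fin n)) :=
      fun A B h => Matrix.ext fun i j => Subtype.ext (congrFun (congrFun h i) j)
    refine ⟨⟨V, W, hinj (by rw [map_mul, hval, hinv, Units.mul_inv, map_one]),
      hinj (by rw [map_mul, hval, hinv, Units.inv_mul, map_one])⟩, Units.ext hval⟩

theorem glTranspose_mem_integralGL {g : Matrix.GeneralLinearGroup (Fin n) ℚ_[p]}
    (hg : g ∈ integralGL p n) : glTranspose g ∈ integralGL p n := by
  rw [mem_integralGL_iff] at hg ⊢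
  exact ⟨fun i j => hg.1 j i, fun i j => hg.2 j i⟩

/-- `GL_n (ℤ_p)` is compact. -/
theorem isCompact_integralGL :
    IsCompact (integralGL p n : Set (Matrix.GeneralLinearGroup (Fin n) ℚ_[p])) := by
  haveI : CompactSpace (Matrix (Fin n) (Fin n) ℤ_[p]) :=
    inferInstanceAs (CompactSpace (Fin n → Fin n → ℤ_[p]))
  haveI : T1Space (Matrix (Fin n) (Fin n) ℤ_[p]) :=
    inferInstanceAs (T1Space (Fin n → Fin n → ℤ_[p]))
  rw [integralGL, MonoidHom.coe_range]
  exact isCompact_range ((Continuous.matrix_map continuous_id continuous_subtype_val :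
    Continuous fun A : Matrix (Fin n) (Fin n) ℤ_[p] => A.map (Subtype.val : ℤ_[p] → ℚ_[p])).units_map
      _)

/-- **The Cartan decomposition of `GL_n (ℚ_p)`.** -/
theorem cartan_decomposition_padic (g : Matrix.GeneralLinearGroup (Fin n) ℚ_[p]) :
    ∃ a ∈ integralGL p n, ∃ b ∈ integralGL p n, ∃ e : Fin n → ℤ,
      (g : Matrix (Fin n) (Fin n) ℚ_[p]) = (a : Matrix (Fin n) (Fin n) ℚ_[p]) *
        Matrix.diagonal (fun i => (p : ℚ_[p]) ^ e i) * (b : Matrix (Fin n) (Fin n) ℚ_[p]) := by
  obtain ⟨M, hM⟩ := Finite.bddAbove_range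
    fun q : Fin n × Fin n => ‖(g : Matrix (Fin n) (Fin n) ℚ_[p]) q.1 q.2‖
  obtain ⟨N, hN⟩ := pow_unbounded_of_one_lt M
    (show (1 : ℝ) < p by exact_mod_cast (Fact.out : p.Prime).one_lt)
  have hp0 : (p : ℚ_[p]) ≠ 0 := by exact_mod_cast (Fact.out : p.Prime).ne_zero
  have hle : ∀ i j, ‖(p : ℚ_[p]) ^ N * (g : Matrix (Fin n) (Fin n) ℚ_[p]) i j‖ ≤ 1 := fun i j => by
    have hp : (0 : ℝ) < (p : ℝ) ^ N := pow_pos (by exact_mod_cast (Fact.out : p.Prime).pos) N
    rw [norm_mul, norm_pow, Padic.norm_p, inv_pow, ← div_eq_inv_mul, div_le_one hp]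
    exact (hM ⟨(i, j), rfl⟩).trans hN.le
  set A : Matrix (Fin n) (Fin n) ℤ_[p] := Matrix.of fun i j => ⟨_, hle i j⟩ with hA
  have hAg : (PadicInt.Coe.ringHom (p := p)).mapMatrix A =
      (p : ℚ_[p]) ^ N • (g : Matrix (Fin n) (Fin n) ℚ_[p]) := Matrix.ext fun i j => rfl
  have hdet : A.det ≠ 0 := fun h => by
    have h2 := RingHom.map_det (PadicInt.Coe.ringHom (p := p)) A
    rw [h, map_zero, hAg, Matrix.det_smul] at h2
    exact mul_ne_zero (pow_ne_zero _ (pow_ne_zero _ hp0))
      ((Matrix.isUnit_iff_isUnit_det _).1 g.isUnit).ne_zero h2.symm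
  obtain ⟨P, Q, a, ha, hPQ⟩ := exists_diagonal_form hdet
  set u : Fin n → ℤ_[p]ˣ := fun i => PadicInt.unitCoeff (ha i) with hu
  set φ := Matrix.GeneralLinearGroup.map (n := Fin n) (PadicInt.Coe.ringHom : ℤ_[p] →+* ℚ_[p])
  refine ⟨φ P, ⟨P, rfl⟩, φ (diagGL u * Q), ⟨_, rfl⟩,
    fun i => ((a i).valuation : ℤ) - N, ?_⟩
  have hd : Matrix.diagonal a =
      Matrix.diagonal (fun i => (p : ℤ_[p]) ^ (a i).valuation) * (diagGL u).val := by
    show _ = _ * Matrix.diagonal _
    rw [Matrix.diagonal_mul_diagonal]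
    exact congrArg Matrix.diagonal (funext fun i => by
      rw [mul_comm]
      exact PadicInt.unitCoeff_spec (ha i))
  have h1 : (p : ℚ_[p]) ^ N • (g : Matrix (Fin n) (Fin n) ℚ_[p]) = (φ P).val *
      Matrix.diagonal (fun i => (p : ℚ_[p]) ^ (a i).valuation) * (φ (diagGL u * Q)).val := by
    rw [← hAg, hPQ, hd, ← mul_assoc _ _ (diagGL u).val, mul_assoc _ (diagGL u).val, map_mul, map_mul]
    refine congrArg₂ (· * ·) (congrArg₂ (· * ·) rfl ?_) rfl
    rw [RingHom.mapMatrix_apply, Matrix.diagonal_map (map_zero _)]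
    exact congrArg Matrix.diagonal (funext fun i => by simp)
  have h2 : Matrix.diagonal (fun i => (p : ℚ_[p]) ^ (((a i).valuation : ℤ) - N)) =
      ((p : ℚ_[p]) ^ N)⁻¹ • Matrix.diagonal (fun i => (p : ℚ_[p]) ^ (a i).valuation) := by
    rw [← Matrix.diagonal_smul]
    exact congrArg Matrix.diagonal (funext fun i => by
      rw [Pi.smul_apply, smul_eq_mul, zpow_sub₀ hp0, zpow_natCast, zpow_natCast, div_eq_inv_mul])
  rw [h2, Matrix.mul_smul, Matrix.smul_mul, ← h1, smul_smul,
    inv_mul_cancel₀ (pow_ne_zero _ hp0), one_smul]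

/-- Transposition is a Gelfand involution for `(GL_n (ℚ_p), GL_n (ℤ_p))`. -/
theorem isGelfandInvolution_padic :
    IsGelfandInvolution (integralGL p n) glTranspose := by
  refine ⟨continuous_glTranspose, glTranspose_mul, glTranspose_glTranspose,
    fun k hk => glTranspose_mem_integralGL p n hk, fun g =>
    doubleCoset_of_decomposition (fun k hk => glTranspose_mem_integralGL p n hk) ?_⟩
  obtain ⟨a, ha, b, hb, e, he⟩ := cartan_decomposition_padic p n g
  have hp0 : (p : ℚ_[p]) ≠ 0 := by exact_mod_cast (Fact.out : p.Prime).ne_zero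
  exact ⟨a, ha, b, hb, fun i => Units.mk0 _ (zpow_ne_zero (e i) hp0), Units.ext he⟩

end padic

section real

variable (n : ℕ)

/-- `O(n)` in `GL_n (ℝ)`. -/
def orthogonalGL : Subgroup (Matrix.GeneralLinearGroup (Fin n) ℝ) where
  carrier := {g | glTranspose g = g⁻¹}
  one_mem' := by
    show glTranspose 1 = 1⁻¹
    rw [inv_one]
    exact Units.ext Matrix.transpose_one
  mul_mem' := fun {a b} (ha : _ = _) (hb : _ = _) => by
    show glTranspose (a * b) = (a * b)⁻¹
    rw [glTranspose_mul, ha, hb, mul_inv_rev]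
  inv_mem' := fun {a} (ha : _ = _) => by
    show glTranspose a⁻¹ = a⁻¹⁻¹
    rw [glTranspose_inv, ha]

theorem glTranspose_mem_orthogonalGL {g : Matrix.GeneralLinearGroup (Fin n) ℝ}
    (hg : g ∈ orthogonalGL n) : glTranspose g ∈ orthogonalGL n := by
  rw [show glTranspose g = g⁻¹ from hg]
  exact inv_mem hg

theorem mem_orthogonalGL_of_mul {g : Matrix.GeneralLinearGroup (Fin n) ℝ}
    (h : (g : Matrix (Fin n) (Fin n) ℝ)ᵀ * g = 1) : g ∈ orthogonalGL n :=
  Units.ext (Units.eq_inv_of_mul_eq_one_right (u := g) (a := (g : Matrix (Fin n) (Fin n) ℝ)ᵀ) h)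

/-- `O(n)` is compact. -/
theorem isCompact_orthogonalGL :
    IsCompact (orthogonalGL n : Set (Matrix.GeneralLinearGroup (Fin n) ℝ)) := by
  rw [Units.isEmbedding_embedProduct.isCompact_iff]
  have hS : IsCompact {M : Matrix (Fin n) (Fin n) ℝ | Mᵀ * M = 1} := by
    refine IsCompact.of_isClosed_subset
      (isCompact_univ_pi fun _ : Fin n => isCompact_univ_pi fun _ : Fin n =>
        isCompact_Icc (a := (-1 : ℝ)) (b := 1)) ?_ fun M hM i _ j _ => ?_
    · exact isClosed_eq (continuous_id.matrix_transpose.matrix_mul continuous_id) continuous_const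
    · have h := congrFun (congrFun hM j) j
      rw [Matrix.mul_apply, Matrix.one_apply_eq] at h
      have h2 : M i j * M i j ≤ 1 := h ▸ Finset.single_le_sum (f := fun k => M k j * M k j)
        (fun k _ => mul_self_nonneg _) (Finset.mem_univ i)
      exact abs_le.1 (abs_le_one_iff_mul_self_le_one.2 h2)
  convert hS.image (f := fun M => (M, MulOpposite.op Mᵀ))
    (continuous_id.prodMk (MulOpposite.continuous_op.comp continuous_id.matrix_transpose)) using 1
  ext ⟨x, y⟩
  constructor
  · rintro ⟨g, hg, e⟩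
    refine ⟨g.val, ?_, ?_⟩
    · show (glTranspose g).val * g.val = 1
      rw [show glTranspose g = g⁻¹ from hg, Units.inv_mul]
    · rw [← e]
      show (g.val, MulOpposite.op (glTranspose g).val) = _
      rw [show glTranspose g = g⁻¹ from hg]
      rfl
  · rintro ⟨M, hM, e⟩
    exact ⟨⟨M, Mᵀ, mul_eq_one_comm.1 hM, hM⟩, mem_orthogonalGL_of_mul n hM, e⟩

/-- **The Cartan decomposition of `GL_n (ℝ)`.** -/
theorem cartan_decomposition_real (g : Matrix.GeneralLinearGroup (Fin n) ℝ) :
    ∃ a ∈ orthogonalGL n, ∃ b ∈ orthogonalGL n, ∃ d : Fin n → ℝ, (∀ i, 0 < d i) ∧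
      (g : Matrix (Fin n) (Fin n) ℝ) = (a : Matrix (Fin n) (Fin n) ℝ) * Matrix.diagonal d *
        (b : Matrix (Fin n) (Fin n) ℝ) := by
  have hM : ((g : Matrix (Fin n) (Fin n) ℝ)ᴴ * g).PosDef :=
    Matrix.PosDef.conjTranspose_mul_self _ (Matrix.mulVec_injective_of_isUnit g.isUnit)
  set U : Matrix (Fin n) (Fin n) ℝ := (hM.isHermitian.eigenvectorUnitary : Matrix (Fin n) (Fin n) ℝ)
  have hU1 : Uᵀ * U = 1 := by
    rw [← Matrix.conjTranspose_eq_transpose_of_trivial]
    exact Matrix.mem_unitaryGroup_iff'.1 hM.isHermitian.eigenvectorUnitary.2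
  have hU2 : U * Uᵀ = 1 := mul_eq_one_comm.1 hU1
  set r : Fin n → ℝ := fun i => Real.sqrt (hM.isHermitian.eigenvalues i)
  have hr : ∀ i, 0 < r i := fun i => Real.sqrt_pos.2 (hM.eigenvalues_pos i)
  set D' : Matrix (Fin n) (Fin n) ℝ := Matrix.diagonal fun i => (r i)⁻¹
  have hD : D' * Matrix.diagonal r = 1 := by
    simp [D', Matrix.diagonal_mul_diagonal, fun i => inv_mul_cancel₀ (hr i).ne']
  have hspec : (g : Matrix (Fin n) (Fin n) ℝ)ᵀ * g =
      U * Matrix.diagonal hM.isHermitian.eigenvalues * Uᵀ := by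
    rw [← Matrix.conjTranspose_eq_transpose_of_trivial,
      ← Matrix.conjTranspose_eq_transpose_of_trivial U]
    exact hM.isHermitian.spectral_theorem
  set a : Matrix (Fin n) (Fin n) ℝ := g * U * D' with ha
  have haa : aᵀ * a = 1 := by
    have h1 : aᵀ * a = D' * (Uᵀ * ((g : Matrix (Fin n) (Fin n) ℝ)ᵀ * g) * U) * D' := by
      simp only [ha, D', Matrix.transpose_mul, Matrix.diagonal_transpose, mul_assoc]
    rw [h1, hspec, ← mul_assoc Uᵀ, ← mul_assoc Uᵀ, hU1, one_mul, mul_assoc _ Uᵀ U, hU1, mul_one]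
    simp only [D', Matrix.diagonal_mul_diagonal]
    rw [← Matrix.diagonal_one]
    refine congrArg Matrix.diagonal (funext fun i => ?_)
    have h := Real.mul_self_sqrt (hM.eigenvalues_pos i).le
    field_simp [(hr i).ne']
    rw [sq]
    exact h.symm
  refine ⟨⟨a, aᵀ, mul_eq_one_comm.1 haa, haa⟩, mem_orthogonalGL_of_mul n haa,
    ⟨Uᵀ, U, hU1, hU2⟩, mem_orthogonalGL_of_mul n (by rw [Matrix.transpose_transpose]; exact hU2),
    r, hr, ?_⟩
  show (g : Matrix (Fin n) (Fin n) ℝ) = a * Matrix.diagonal r * Uᵀ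
  rw [ha, mul_assoc _ D', hD, mul_one, mul_assoc, hU2, mul_one]

/-- Transposition is a Gelfand involution for `(GL_n (ℝ), O(n))`. -/
theorem isGelfandInvolution_real : IsGelfandInvolution (orthogonalGL n) glTranspose := by
  refine ⟨continuous_glTranspose, glTranspose_mul, glTranspose_glTranspose,
    fun k hk => glTranspose_mem_orthogonalGL n hk, fun g =>
    doubleCoset_of_decomposition (fun k hk => glTranspose_mem_orthogonalGL n hk) ?_⟩
  obtain ⟨a, ha, b, hb, d, hd, he⟩ := cartan_decomposition_real n g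
  exact ⟨a, ha, b, hb, fun i => Units.mk0 _ (hd i).ne', Units.ext he⟩

end real

end FA.GelfandPairs

end
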