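import Fermat.Agent.GelfandRaikov.Corollaries
import Fermat.Agent.PeterWeyl.Kernel

/-!
# Gelfand's trick

Let `K` be a compact subgroup and `θ` a continuous involutive anti-automorphism preserving `K` and
its double cosets.  The projection to the `K`-fixed vectors is the average over `K`, so the product
of two compressed translations is an average of compressed translations, which `θ` shows to be
symmetric.  By Schur's lemma an irreducible unitary representation has at most one fixed line.
-/

set_option autoImplicit false
set_option linter.unusedSectionVars false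
set_option linter.style.haveILetI false

noncomputable section

open MeasureTheory MeasureTheory.Measure Topology Set
open scoped ComplexConjugate InnerProductSpace

namespace FA.GelfandPairs

/-- A continuous involutive anti-automorphism preserving a subgroup and fixing its double cosets. -/
structure IsGelfandInvolution {G : Type*} [Group G] [TopologicalSpace G] (K : Subgroup G)
    (θ : G → G) : Prop where
  continuous : Continuous θ
  map_mul : ∀ g h, θ (g * h) = θ h * θ g
  involutive : Function.Involutive θ
  map_mem : ∀ k ∈ K, θ k ∈ K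
  doubleCoset : ∀ g, ∃ a ∈ K, ∃ b ∈ K, θ g = a * g * b

variable {G : Type*} [Group G] [TopologicalSpace G] [IsTopologicalGroup G] [T2Space G]
  {H : Type*} [NormedAddCommGroup H] [InnerProductSpace ℂ H] [CompleteSpace H]

/-- The vectors fixed by a subgroup. -/
def fixedSpace (K : Subgroup G) (U : G →* (H →L[ℂ] H)) : Submodule ℂ H where
  carrier := {v | ∀ k ∈ K, U k v = v}
  add_mem' := fun {v w} hv hw k hk => by rw [map_add, hv k hk, hw k hk]
  zero_mem' := fun k _ => map_zero _
  smul_mem' := fun c v hv k hk => by rw [map_smul, hv k hk]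

theorem isClosed_fixedSpace (K : Subgroup G) (U : G →* (H →L[ℂ] H)) :
    IsClosed (fixedSpace K U : Set H) := by
  have e : (fixedSpace K U : Set H) = ⋂ k ∈ K, {v | U k v = v} := by
    ext v
    simp [fixedSpace]
  rw [e]
  exact isClosed_biInter fun k _ => isClosed_eq (U k).continuous continuous_id

instance completeSpace_fixedSpace (K : Subgroup G) (U : G →* (H →L[ℂ] H)) :
    CompleteSpace (fixedSpace K U) := (isClosed_fixedSpace K U).completeSpace_coe

/-- A translation compressed to the fixed vectors. -/
def compression (K : Subgroup G) (U : G →* (H →L[ℂ] H)) (g : G) :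
    fixedSpace K U →L[ℂ] fixedSpace K U :=
  (fixedSpace K U).orthogonalProjectionOnto ∘L U g ∘L (fixedSpace K U).subtypeL

theorem coe_compression (K : Subgroup G) (U : G →* (H →L[ℂ] H)) (g : G) (w : fixedSpace K U) :
    (compression K U g w : H) = (fixedSpace K U).starProjection (U g w) := rfl

variable {K : Subgroup G} {U : G →* (H →L[ℂ] H)} (hu : ∀ g, U g ∈ unitary (H →L[ℂ] H))

include hu in
theorem inner_translation (g : G) (v w : H) : ⟪U g v, w⟫_ℂ = ⟪v, U g⁻¹ w⟫_ℂ := by
  have e : star (U g) = U g⁻¹ := left_inv_eq_right_inv (Unitary.mem_iff.1 (hu g)).1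
    (by rw [← map_mul, mul_inv_cancel, map_one])
  rw [← ContinuousLinearMap.adjoint_inner_right, ← ContinuousLinearMap.star_eq_adjoint, e]

include hu in
theorem starProjection_translation {k : G} (hk : k ∈ K) (v : H) :
    (fixedSpace K U).starProjection (U k v) = (fixedSpace K U).starProjection v := by
  refine Submodule.eq_starProjection_of_mem_of_inner_eq_zero (Submodule.starProjection_apply_mem _ v)
    fun w hw => ?_
  rw [inner_sub_left, inner_translation hu, hw k⁻¹ (K.inv_mem hk), ← inner_sub_left]
  exact Submodule.starProjection_inner_eq_zero v w hw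

include hu in
theorem compression_mul_left {k : G} (hk : k ∈ K) (g : G) :
    compression K U (k * g) = compression K U g := by
  ext w
  rw [coe_compression, coe_compression, map_mul, mul_apply_eq_comp,
    starProjection_translation hu hk]

theorem compression_mul_right {k : G} (hk : k ∈ K) (g : G) :
    compression K U (g * k) = compression K U g := by
  ext w
  rw [coe_compression, coe_compression, map_mul, mul_apply_eq_comp, w.2 k hk]

include hu in
theorem star_compression (g : G) : star (compression K U g) = compression K U g⁻¹ := by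
  rw [ContinuousLinearMap.star_eq_adjoint]
  refine ((ContinuousLinearMap.eq_adjoint_iff _ _).2 fun v w => ?_).symm
  show ⟪(compression K U g⁻¹ v : H), (w : H)⟫_ℂ = ⟪(v : H), (compression K U g w : H)⟫_ℂ
  rw [coe_compression, coe_compression, Submodule.inner_starProjection_left_eq_right,
    Submodule.starProjection_eq_self_iff.2 w.2, ← Submodule.inner_starProjection_left_eq_right,
    Submodule.starProjection_eq_self_iff.2 v.2, inner_translation hu, inv_inv]

variable [CompactSpace K] [MeasurableSpace K] [BorelSpace K] (ν : Measure K)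
  [IsProbabilityMeasure ν] [IsMulLeftInvariant ν] (hc : ∀ v, Continuous fun g => U g v)

include hc in
theorem integrable_orbit (g h : G) (v : H) : Integrable (fun k : K => U (g * (k : G) * h) v) ν :=
  FA.PeterWeyl.integrable_cont ν
    ((hc v).comp ((continuous_const.mul continuous_subtype_val).mul continuous_const))

include hu hc in
/-- **The projection to the fixed vectors is the average over `K`.** -/
theorem starProjection_eq_integral (v : H) :
    (fixedSpace K U).starProjection v = ∫ k : K, U k v ∂ν := by
  have hi : Integrable (fun k : K => U k v) ν :=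
    FA.PeterWeyl.integrable_cont ν ((hc v).comp continuous_subtype_val)
  refine Submodule.eq_starProjection_of_mem_of_inner_eq_zero (fun a ha => ?_) fun w hw => ?_
  · rw [← (U a).integral_comp_comm hi]
    calc ∫ k : K, U a (U k v) ∂ν = ∫ k : K, U (((⟨a, ha⟩ : K) * k : K) : G) v ∂ν := by
          simp only [Subgroup.coe_mul, map_mul, mul_apply_eq_comp]
      _ = ∫ k : K, U k v ∂ν := integral_mul_left_eq_self (fun k : K => U k v) ⟨a, ha⟩
  · rw [inner_sub_left, sub_eq_zero, ← inner_conj_symm (∫ k : K, U k v ∂ν) w, ← integral_inner hi]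
    have e : ∀ k : K, ⟪w, U k v⟫_ℂ = ⟪w, v⟫_ℂ := fun k => by
      conv_lhs => rw [← hw k k.2]
      rw [inner_translation hu, ← mul_apply_eq_comp, ← map_mul, inv_mul_cancel, map_one,
        one_apply_eq_self]
    simp only [e, integral_const, probReal_univ, one_smul, inner_conj_symm]

include hu hc in
/-- The product of two compressions is an average of compressions. -/
theorem compression_mul (g h : G) (w : fixedSpace K U) :
    (compression K U g (compression K U h w) : H) =
      ∫ k : K, (compression K U (g * k * h) w : H) ∂ν := by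
  have hi : Integrable (fun k : K => U k (U h w)) ν :=
    FA.PeterWeyl.integrable_cont ν ((hc _).comp continuous_subtype_val)
  rw [coe_compression K U g, coe_compression K U h, starProjection_eq_integral hu ν hc (U h w),
    ← (U g).integral_comp_comm hi, ← (fixedSpace K U).starProjection.integral_comp_comm]
  · refine integral_congr_ae (.of_forall fun k => ?_)
    simp only [coe_compression, map_mul, mul_apply_eq_comp]
  · exact (U g).integrable_comp hi

theorem integral_twist {K' : Type*} [Group K'] [TopologicalSpace K'] [IsTopologicalGroup K']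
    [CompactSpace K'] [MeasurableSpace K'] [BorelSpace K'] {E : Type*} [NormedAddCommGroup E]
    [NormedSpace ℝ E] (μ : Measure K') [μ.IsMulLeftInvariant] [μ.IsMulRightInvariant] {τ : K' → K'}
    (hτc : Continuous τ) (hτ : Measure.map τ μ = μ) {F : K' → E} (hF : Continuous F) (b c : K') :
    ∫ k, F (b * τ k * c) ∂μ = ∫ k, F k ∂μ := by
  have hG : Continuous fun k => F (b * k * c) :=
    hF.comp ((continuous_const.mul continuous_id).mul continuous_const)
  have h1 : ∫ k, F (b * τ k * c) ∂μ = ∫ k, F (b * k * c) ∂(Measure.map τ μ) :=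
    (integral_map (φ := τ) (f := fun k => F (b * k * c)) hτc.measurable.aemeasurable
      (hG.stronglyMeasurable_of_hasCompactSupport
        (HasCompactSupport.of_compactSpace _)).aestronglyMeasurable).symm
  rw [h1, hτ, integral_mul_left_eq_self (fun k => F (k * c)) b, integral_mul_right_eq_self F c]

include hu hc ν in
/-- **Gelfand's trick.** -/
theorem compression_comm {θ : G → G} (hθ : IsGelfandInvolution K θ) (g h : G) :
    Commute (compression K U g) (compression K U h) := by
  haveI := FA.PeterWeyl.isMulRightInvariant_compact ν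
  let τ : K → K := fun k => ⟨θ k, hθ.map_mem k k.2⟩
  have hτc : Continuous τ := (hθ.continuous.comp continuous_subtype_val).subtype_mk _
  have hτ : Measure.map τ ν = ν := by
    haveI : IsProbabilityMeasure (Measure.map τ ν) :=
      Measure.isProbabilityMeasure_map hτc.measurable.aemeasurable
    haveI : IsMulLeftInvariant (Measure.map τ ν) := ⟨fun a => by
      rw [Measure.map_map (continuous_const_mul a).measurable hτc.measurable]
      have e : (fun b => a * b) ∘ τ = τ ∘ fun k => k * τ a := funext fun k => Subtype.ext (by
        show (a : G) * θ k = θ (k * θ a)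
        rw [hθ.map_mul, hθ.involutive])
      rw [e, ← Measure.map_map hτc.measurable (continuous_mul_const (τ a)).measurable,
        map_mul_right_eq_self]⟩
    exact FA.PeterWeyl.invariant_measure_unique _ ν
  have hQθ : ∀ x, compression K U (θ x) = compression K U x := fun x => by
    obtain ⟨a, ha, b, hb, e⟩ := hθ.doubleCoset x
    rw [e, compression_mul_right hb, compression_mul_left hu ha]
  refine ContinuousLinearMap.ext fun w => Subtype.ext ?_
  rw [mul_apply_eq_comp, mul_apply_eq_comp, compression_mul hu ν hc g h w,
    compression_mul hu ν hc h g w]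
  obtain ⟨a, ha, b, hb, eh⟩ := hθ.doubleCoset h
  obtain ⟨c, hcK, d, hd, eg⟩ := hθ.doubleCoset g
  set F : K → H := fun k => (compression K U (h * k * g) w : H) with hF
  have hFc : Continuous F :=
    (fixedSpace K U).starProjection.continuous.comp
      ((hc _).comp ((continuous_const.mul continuous_subtype_val).mul continuous_const))
  have step : ∀ k : K, (compression K U (g * k * h) w : H) = F (⟨b, hb⟩ * τ k * ⟨c, hcK⟩) :=
    fun k => by
      rw [← hQθ, hθ.map_mul, hθ.map_mul, eh, eg]
      show (compression K U (a * h * b * (θ k * (c * g * d))) w : H) =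
        (compression K U (h * (b * θ k * c) * g) w : H)
      rw [show a * h * b * (θ k * (c * g * d)) = a * (h * (b * θ k * c) * g * d) by
        simp only [mul_assoc], compression_mul_left hu ha, compression_mul_right hd]
  simp only [step]
  exact integral_twist ν hτc hτ hFc ⟨b, hb⟩ ⟨c, hcK⟩

include hu hc ν in
/-- **Compressions of an irreducible representation are scalars.** -/
theorem compression_eq_scalar {θ : G → G} (hθ : IsGelfandInvolution K θ)
    (hi : FA.GelfandRaikov.NoInvariantSubspace ⇑U) [Nontrivial (fixedSpace K U)] (g : G) :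
    ∃ z : ℂ, compression K U g = z • 1 := by
  have hno : FA.GelfandRaikov.NoInvariantSubspace (compression K U) := by
    intro W₁ hW₁ hinv
    by_cases h0 : W₁ = ⊥
    · exact Or.inl h0
    right
    haveI : CompleteSpace W₁ := hW₁.completeSpace_coe
    obtain ⟨w₁, hw₁, hw₁0⟩ := (Submodule.ne_bot_iff W₁).1 h0
    set V := (Submodule.span ℂ
      {y : H | ∃ g, ∃ w ∈ W₁, U g (w : H) = y}).topologicalClosure with hV
    have hVc : IsClosed (V : Set H) := Submodule.isClosed_topologicalClosure _
    have hVi : ∀ g, ∀ v ∈ V, U g v ∈ V := fun g => by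
      refine Submodule.topologicalClosure_minimal _ (t := V.comap (U g : H →ₗ[ℂ] H))
        (Submodule.span_le.2 ?_) (hVc.preimage (U g).continuous)
      rintro _ ⟨h, w, hw, rfl⟩
      refine Submodule.le_topologicalClosure _ (Submodule.subset_span ⟨g * h, w, hw, ?_⟩)
      simp only [map_mul, mul_apply_eq_comp]
      rfl
    have hmem : (w₁ : H) ∈ V := Submodule.le_topologicalClosure _
      (Submodule.subset_span ⟨1, w₁, hw₁, by rw [map_one, one_apply_eq_self]⟩)
    have hVtop : V = ⊤ := (hi V hVc hVi).resolve_left fun e => hw₁0 (by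
      rw [e, Submodule.mem_bot] at hmem
      exact Subtype.ext hmem)
    rw [← Submodule.orthogonal_eq_bot_iff]
    refine (Submodule.eq_bot_iff _).2 fun w₂ hw₂ => Subtype.ext ?_
    have hle : V ≤ (ℂ ∙ (w₂ : H))ᗮ := by
      refine Submodule.topologicalClosure_minimal _ (Submodule.span_le.2 ?_)
        (Submodule.isClosed_orthogonal _)
      rintro _ ⟨h, w, hw, rfl⟩
      refine Submodule.mem_orthogonal_singleton_iff_inner_left.2 ?_
      have h2 : ⟪(compression K U h w : H), (w₂ : H)⟫_ℂ = 0 :=
        hw₂ (compression K U h w) (hinv h w hw)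
      rwa [coe_compression, Submodule.inner_starProjection_left_eq_right,
        Submodule.starProjection_eq_self_iff.2 w₂.2] at h2
    rw [hVtop] at hle
    exact inner_self_eq_zero.1
      (Submodule.mem_orthogonal_singleton_iff_inner_left.1 (hle (Submodule.mem_top (x := (w₂ : H)))))
  refine FA.GelfandRaikov.eq_scalar_of_noInvariant hno ⟨?_⟩
    (fun i => compression_comm hu ν hc hθ g i) fun i => ?_
  · rw [star_compression hu]
    exact compression_comm hu ν hc hθ _ _
  · rw [star_compression hu]
    exact compression_comm hu ν hc hθ _ _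

include hu hc ν in
/-- **At most one fixed line.** -/
theorem finrank_fixedSpace_le_one {θ : G → G} (hθ : IsGelfandInvolution K θ)
    (hi : FA.GelfandRaikov.NoInvariantSubspace ⇑U) :
    FiniteDimensional ℂ (fixedSpace K U) ∧ Module.finrank ℂ (fixedSpace K U) ≤ 1 := by
  rcases subsingleton_or_nontrivial (fixedSpace K U) with h | h
  · exact ⟨inferInstance, by rw [Module.finrank_zero_of_subsingleton]; exact zero_le_one⟩
  obtain ⟨w₀, hw₀⟩ := exists_ne (0 : fixedSpace K U)
  have hno : ∀ w : fixedSpace K U, ∃ c : ℂ, c • w₀ = w := by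
    intro w
    set V := (Submodule.span ℂ (range fun g => U g (w₀ : H))).topologicalClosure with hV
    have hVc : IsClosed (V : Set H) := Submodule.isClosed_topologicalClosure _
    have hVi : ∀ g, ∀ v ∈ V, U g v ∈ V := fun g => by
      refine Submodule.topologicalClosure_minimal _ (t := V.comap (U g : H →ₗ[ℂ] H))
        (Submodule.span_le.2 ?_) (hVc.preimage (U g).continuous)
      rintro _ ⟨h, rfl⟩
      refine Submodule.le_topologicalClosure _ (Submodule.subset_span ⟨g * h, ?_⟩)
      simp only [map_mul, mul_apply_eq_comp]
      rfl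
    have hVtop : V = ⊤ := (hi V hVc hVi).resolve_left fun e => hw₀ (by
      have hmem : (w₀ : H) ∈ V := Submodule.le_topologicalClosure _
        (Submodule.subset_span ⟨1, by simp only [map_one, one_apply_eq_self]⟩)
      rw [e, Submodule.mem_bot] at hmem
      exact Subtype.ext hmem)
    -- the fixed vectors lie in the line through `w₀`
    haveI : CompleteSpace (ℂ ∙ (w₀ : H)) := FiniteDimensional.complete ℂ _
    have hsub : V.map ((fixedSpace K U).starProjection : H →ₗ[ℂ] H) ≤ ℂ ∙ (w₀ : H) := by
      rw [Submodule.map_le_iff_le_comap]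
      refine Submodule.topologicalClosure_minimal _ (Submodule.span_le.2 ?_)
        ((Submodule.closed_of_finiteDimensional (ℂ ∙ (w₀ : H))).preimage
          (fixedSpace K U).starProjection.continuous)
      rintro _ ⟨g, rfl⟩
      obtain ⟨z, hz⟩ := compression_eq_scalar hu ν hc hθ hi g
      refine Submodule.mem_span_singleton.2 ⟨z, ?_⟩
      show z • (w₀ : H) = (compression K U g w₀ : H)
      rw [hz]
      rfl
    have hw : (w : H) ∈ ℂ ∙ (w₀ : H) := hsub ⟨(w : H), by rw [hVtop]; trivial,
      Submodule.starProjection_eq_self_iff.2 w.2⟩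
    obtain ⟨c, hcw⟩ := Submodule.mem_span_singleton.1 hw
    exact ⟨c, Subtype.ext hcw⟩
  exact ⟨Module.finite_of_finrank_eq_succ (finrank_eq_one w₀ hw₀ hno),
    (finrank_eq_one w₀ hw₀ hno).le⟩

include hu hc in
/-- **The functional equation of a spherical function.** -/
theorem spherical_equation {θ : G → G} (hθ : IsGelfandInvolution K θ)
    (hi : FA.GelfandRaikov.NoInvariantSubspace ⇑U) {v : H} (hv : v ∈ fixedSpace K U)
    (hv1 : ‖v‖ = 1) (g h : G) :
    ∫ k : K, ⟪v, U (g * k * h) v⟫_ℂ ∂ν = ⟪v, U g v⟫_ℂ * ⟪v, U h v⟫_ℂ := by
  haveI : Nontrivial (fixedSpace K U) := nontrivial_of_ne ⟨v, hv⟩ 0 fun e => by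
    have h := congrArg (fun x : fixedSpace K U => ‖(x : H)‖) e
    simp [hv1] at h
  have hvv : ⟪v, v⟫_ℂ = 1 := by rw [inner_self_eq_norm_sq_to_K, hv1]; simp
  have hcoef : ∀ x, (compression K U x ⟨v, hv⟩ : H) = ⟪v, U x v⟫_ℂ • v := fun x => by
    obtain ⟨z, hz⟩ := compression_eq_scalar hu ν hc hθ hi x
    have hzv : ⟪v, U x v⟫_ℂ = z := by
      have e : ⟪v, (compression K U x ⟨v, hv⟩ : H)⟫_ℂ = ⟪v, U x v⟫_ℂ := by
        rw [coe_compression, ← Submodule.inner_starProjection_left_eq_right,
          Submodule.starProjection_eq_self_iff.2 hv]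
      rw [← e, hz]
      show ⟪v, z • v⟫_ℂ = z
      rw [inner_smul_right, hvv, mul_one]
    rw [hzv, hz]
    rfl
  have e := compression_mul hu ν hc g h ⟨v, hv⟩
  have e1 : (compression K U g (compression K U h ⟨v, hv⟩) : H) =
      (⟪v, U h v⟫_ℂ * ⟪v, U g v⟫_ℂ) • v := by
    rw [show compression K U h ⟨v, hv⟩ = ⟪v, U h v⟫_ℂ • (⟨v, hv⟩ : fixedSpace K U) from
      Subtype.ext (hcoef h), map_smul, Submodule.coe_smul, hcoef, smul_smul]
  rw [e1] at e
  simp only [hcoef] at e
  rw [integral_smul_const] at e
  have e2 := congrArg (fun y => ⟪v, y⟫_ℂ) e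
  simp only [inner_smul_right, hvv, mul_one] at e2
  rw [← e2, mul_comm]

end FA.GelfandPairs

end
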